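import Mathlib

/-!
# The norm as a product over an explicit complete family of embeddings

Let `L / K` be a finite separable extension of degree `n` and let `τ i : L →+* E` (`i : I`,
`|I| = n`) be pairwise distinct ring homomorphisms into a field `E` which all restrict to the same
`j : K →+* E`.  Then `j (N_{L/K} x) = ∏ i, τ i x` (and similarly for the trace).

This is the Galois-theoretic input of the "Hecke operator on Kummer classes" computation
(`K = ` function field of `X₀(N)`, `L = ` function field of `X₀(Nℓ)`, `E = ` meromorphic functions
on the upper half plane, `τ i f = f ∘ γ_i`).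
-/

set_option autoImplicit false
set_option linter.style.haveILetI false
set_option linter.unusedSectionVars false

namespace Fermat.Agent.S29.H455

open Polynomial

section

variable {K L E : Type*} [Field K] [Field L] [Field E] [Algebra K L] [FiniteDimensional K L]
  [Algebra.IsSeparable K L]
variable (j : K →+* E) {I : Type*} [Fintype I] (τ : I → (L →+* E))

/-- The `K`-algebra homomorphism into the algebraic closure of `E` induced by `τ i`. -/
noncomputable def NormEmb_lift (hτ : ∀ i, (τ i).comp (algebraMap K L) = j) (i : I) :
    letI : Algebra K E := j.toAlgebra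
    L →ₐ[K] AlgebraicClosure E :=
  letI : Algebra K E := j.toAlgebra
  { (algebraMap E (AlgebraicClosure E)).comp (τ i) with
    commutes' := fun a => by
      have h := RingHom.congr_fun (hτ i) a
      simp only [RingHom.comp_apply] at h
      show (algebraMap E (AlgebraicClosure E)) (τ i (algebraMap K L a)) = _
      rw [h]
      rfl }

theorem NormEmb_lift_apply (hτ : ∀ i, (τ i).comp (algebraMap K L) = j) (i : I) (x : L) :
    (letI : Algebra K E := j.toAlgebra; NormEmb_lift j τ hτ i x)
      = algebraMap E (AlgebraicClosure E) (τ i x) := rfl

theorem NormEmb_lift_bijective (hτ : ∀ i, (τ i).comp (algebraMap K L) = j)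
    (hinj : Function.Injective τ) (hcard : Fintype.card I = Module.finrank K L) :
    letI : Algebra K E := j.toAlgebra
    Function.Bijective (NormEmb_lift j τ hτ) := by
  letI : Algebra K E := j.toAlgebra
  rw [Fintype.bijective_iff_injective_and_card]
  refine ⟨fun i i' h => hinj ?_, ?_⟩
  · ext x
    have := DFunLike.congr_fun h x
    rw [NormEmb_lift_apply, NormEmb_lift_apply] at this
    exact (algebraMap E (AlgebraicClosure E)).injective this
  · rw [hcard, AlgHom.card K L (AlgebraicClosure E)]

/-- The norm is the product over a complete family of distinct embeddings. -/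
theorem norm_eq_prod_of_injective (hτ : ∀ i, (τ i).comp (algebraMap K L) = j)
    (hinj : Function.Injective τ) (hcard : Fintype.card I = Module.finrank K L) (x : L) :
    j (Algebra.norm K x) = ∏ i, τ i x := by
  letI : Algebra K E := j.toAlgebra
  have h1 := Algebra.norm_eq_prod_embeddings K (AlgebraicClosure E) x
  have h2 : ∏ i, NormEmb_lift j τ hτ i x = ∏ σ : L →ₐ[K] AlgebraicClosure E, σ x :=
    Fintype.prod_bijective _ (NormEmb_lift_bijective j τ hτ hinj hcard) _ _ (fun _ => rfl)
  rw [← h2] at h1
  simp only [NormEmb_lift_apply] at h1
  rw [← map_prod] at h1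
  have h3 : algebraMap K (AlgebraicClosure E) (Algebra.norm K x)
      = algebraMap E (AlgebraicClosure E) (j (Algebra.norm K x)) := rfl
  rw [h3] at h1
  exact (algebraMap E (AlgebraicClosure E)).injective h1

/-- The trace is the sum over a complete family of distinct embeddings. -/
theorem trace_eq_sum_of_injective (hτ : ∀ i, (τ i).comp (algebraMap K L) = j)
    (hinj : Function.Injective τ) (hcard : Fintype.card I = Module.finrank K L) (x : L) :
    j (Algebra.trace K L x) = ∑ i, τ i x := by
  letI : Algebra K E := j.toAlgebra
  have h1 := trace_eq_sum_embeddings (K := K) (L := L) (AlgebraicClosure E) (x := x)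
  have h2 : ∑ i, NormEmb_lift j τ hτ i x = ∑ σ : L →ₐ[K] AlgebraicClosure E, σ x :=
    Fintype.sum_bijective _ (NormEmb_lift_bijective j τ hτ hinj hcard) _ _ (fun _ => rfl)
  rw [← h2] at h1
  simp only [NormEmb_lift_apply] at h1
  rw [← map_sum] at h1
  have h3 : algebraMap K (AlgebraicClosure E) (Algebra.trace K L x)
      = algebraMap E (AlgebraicClosure E) (j (Algebra.trace K L x)) := rfl
  rw [h3] at h1
  exact (algebraMap E (AlgebraicClosure E)).injective h1

end

end Fermat.Agent.S29.H455
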